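import Fermat.Agent.CAR.TH1.Pl.Main
import Fermat.Agent.GAL.CT.Q.ThetaJ

/-!
# CAR / TH1 / Pl / Theta : the differential identity `HC`
`Δ(Q^{d₂})/Δ(Q^{d₁}) · R(j_{d₂}) d₂⁶ = (c d₁)⁶ R(j_{d₁})`, `d j_{d₂} = c · d j_{d₁}`.
-/

set_option autoImplicit false

open ModularCurve AlgebraicCurve Polynomial

noncomputable section

namespace Fermat.Agent.CAR.TH1

open Fermat.Agent.GR Fermat.Agent.GAL Fermat.Agent.GAL.KL Fermat.Agent.GAL.KLC Fermat.Agent.S24
open Fermat.Agent.GAL.CT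

/-- `θ (f(Q^d)) = d (θ f)(Q^d)`. -/
theorem pl_theta_qExpand {R : Type*} [CommRing R] (d : ℕ) [NeZero d] (u : LaurentSeries R) :
    theta (qExpand R d u) = (d : LaurentSeries R) * qExpand R d (theta u) := by
  have hd : (d : LaurentSeries R) = HahnSeries.C (d : R) := by rw [map_natCast]
  rw [hd]
  ext n
  rw [HahnSeries.C_mul_eq_smul, HahnSeries.coeff_smul, coeff_theta, smul_eq_mul]
  by_cases hn : (d : ℤ) ∣ n
  · obtain ⟨m, rfl⟩ := hn
    rw [qExpand_coeff_mul, qExpand_coeff_mul, coeff_theta]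
    push_cast
    ring
  · rw [qExpand_coeff_of_not_dvd d _ hn, qExpand_coeff_of_not_dvd d _ hn, mul_zero, mul_zero]

/-- `(θ j_d)⁶ = d⁶ R(j_d) Δ(Q^d)` in `ℤ((Q))`. -/
theorem pl_theta_pow_six (d : ℕ) [NeZero d] :
    theta (qExpand ℤ d jZ) ^ 6 = (d : LaurentSeries ℤ) ^ 6 * RJ (qExpand ℤ d jZ) * qExpand ℤ d DZ := by
  rw [pl_theta_qExpand, mul_pow, ← map_pow, theta_jZ_pow_six]
  unfold RJ
  simp only [map_mul, map_pow, map_sub, map_ofNat]
  ring

/-- the coefficient map `ℤ((Q)) → ℚ̄((Q))`. -/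
abbrev phZ : LaurentSeries ℤ →+* LaurentSeries Qb := coeffMap (Int.castRingHom Qb)

theorem pl_JdL_eq (d : ℕ) [NeZero d] : JdL d = phZ (qExpand ℤ d jZ) := by
  unfold JdL
  rw [xMem_coeffMap_int, GR.coeffMap_qExpand, coeffMap_jqModC]
  rfl

theorem pl_RJ_map {A B : Type*} [CommRing A] [CommRing B] (f : A →+* B) (y : A) : f (RJ y) = RJ (f y) := by
  unfold RJ
  simp only [map_mul, map_pow, map_sub, map_ofNat]

/-- `(θ j_d)⁶ = d⁶ R(j_d) Δ(Q^d)` in `ℚ̄((Q))`. -/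
theorem pl_theta_JdL_pow_six (d : ℕ) [NeZero d] :
    theta (JdL d) ^ 6 = (d : LaurentSeries Qb) ^ 6 * RJ (JdL d) * phZ (qExpand ℤ d DZ) := by
  rw [pl_JdL_eq, theta_coeffMap, ← map_pow, pl_theta_pow_six, map_mul, map_mul, map_pow, map_natCast,
    pl_RJ_map]

/-- `(Δ(Q^{d₂})/Δ(Q^{d₁})) Δ(Q^{d₁}) = Δ(Q^{d₂})`. -/
theorem pl_dU_mul (d₁ d₂ : ℕ) [NeZero d₁] [NeZero d₂] :
    ((dU d₁ d₂ : (LaurentSeries ℤ)ˣ) : LaurentSeries ℤ) * qExpand ℤ d₁ DZ = qExpand ℤ d₂ DZ := by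
  have h : ∀ d : ℕ, [NeZero d] → qExpand ℤ d DZ =
      ((Units.map (S28.qE ℤ d : LaurentSeries ℤ →* LaurentSeries ℤ) DU : (LaurentSeries ℤ)ˣ) :
        LaurentSeries ℤ) := by
    intro d _
    rw [Units.coe_map, ← S28.qE_eq]
    rfl
  rw [h d₁, h d₂, ← Units.val_mul]
  congr 1
  unfold dU uU
  group

theorem pl_coe_smul (N : ℕ) (c : Qb) (z : FN N) :
    ((c • z : FN N) : LaurentSeries Qb) = HahnSeries.C c * (z : LaurentSeries Qb) := by
  rw [Algebra.smul_def, ← ValThm_coe_algebraMap N c]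
  rfl

instance pl_isScalarTower (N : ℕ) : IsScalarTower Qb (FN N) (LaurentSeries Qb) :=
  ⟨fun c z w => by
    show ((c • z : FN N) : LaurentSeries Qb) * w = c • ((z : LaurentSeries Qb) * w)
    rw [pl_coe_smul, mul_assoc, HahnSeries.C_mul_eq_smul]⟩

/-- `θ` as a `ℚ̄`-derivation `FN N → ℚ̄((Q))`. -/
def thD (N : ℕ) : Derivation Qb (FN N) (LaurentSeries Qb) :=
  Derivation.mk'
    { toFun := fun z => theta (z : LaurentSeries Qb)
      map_add' := fun a b => theta_add _ _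
      map_smul' := fun c z => by
        show theta ((c • z : FN N) : LaurentSeries Qb) = c • theta (z : LaurentSeries Qb)
        rw [pl_coe_smul, theta_C_mul, HahnSeries.C_mul_eq_smul] }
    (fun a b => by
      show theta ((a : LaurentSeries Qb) * (b : LaurentSeries Qb)) =
        (a : LaurentSeries Qb) * theta (b : LaurentSeries Qb) + (b : LaurentSeries Qb) * theta (a : LaurentSeries Qb)
      rw [theta_mul]
      ring)

theorem thD_apply (N : ℕ) (z : FN N) : thD N z = theta (z : LaurentSeries Qb) := rfl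

/-- **the differential identity.** -/
theorem hC (N d₁ d₂ : ℕ) [NeZero N] [NeZero d₁] [NeZero d₂] (h₁ : d₁ ∣ N) (h₂ : d₂ ∣ N) :
    HC N d₁ d₂ h₁ h₂ := by
  have hord : ∀ (d : ℕ) [NeZero d] (hd : d ∣ N), (S37.Pinf N).ord (Jd N d hd) ≠ 0 := by
    intro d _ hd
    rw [S37.Pinf_ord]
    show (JdL d).order ≠ 0
    have e : JdL d = qExpand Qb d ((JJ N : FN N) : LaurentSeries Qb) := by
      show coeffMap (algebraMap ℚ Qb) (qExpand ℚ d jq) =
        qExpand Qb d (coeffMap (algebraMap ℚ Qb) (qExpand ℚ 1 jq))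
      rw [qExpand_one_apply, GR.coeffMap_qExpand]
    rw [e, TOR.T1.ResField_order_qExpand, S37.order_JJ]
    have : (d : ℤ) ≠ 0 := by exact_mod_cast NeZero.ne d
    omega
  have ht₁ : Transcendental Qb (Jd N d₁ h₁) := FF.transcendental_of_ord_ne_zero _ (hord d₁ h₁)
  have hmem : KaehlerDifferential.D Qb (FN N) (Jd N d₂ h₂) ∈
      Submodule.span (FN N) {KaehlerDifferential.D Qb (FN N) (Jd N d₁ h₁)} := by
    rw [FF.span_D_eq_top ht₁]
    exact Submodule.mem_top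
  obtain ⟨c, hc⟩ := Submodule.mem_span_singleton.1 hmem
  refine ⟨c, hc.symm, ?_⟩
  -- apply `θ`
  have hθ : theta (JdL d₂) = (c : LaurentSeries Qb) * theta (JdL d₁) := by
    have := congrArg (thD N).liftKaehlerDifferential hc
    rw [map_smul, Derivation.liftKaehlerDifferential_comp_D, Derivation.liftKaehlerDifferential_comp_D] at this
    exact this.symm
  apply Subtype.ext
  have hD0 : phZ (qExpand ℤ d₁ DZ) ≠ 0 := by
    have hu : IsUnit (qExpand ℤ d₁ DZ) := (DU.isUnit).map (qExpand ℤ d₁)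
    exact (hu.map phZ).ne_zero
  apply mul_right_cancel₀ hD0
  have h2 := congrArg phZ (pl_dU_mul d₁ d₂)
  rw [map_mul] at h2
  have e1 := pl_theta_JdL_pow_six d₁
  have e2 := pl_theta_JdL_pow_six d₂
  rw [hθ, mul_pow, e1, ← h2] at e2
  show phZ ((dU d₁ d₂ : (LaurentSeries ℤ)ˣ) : LaurentSeries ℤ) * RJ (JdL d₂) * (d₂ : LaurentSeries Qb) ^ 6 *
      phZ (qExpand ℤ d₁ DZ) = ((c : LaurentSeries Qb) * (d₁ : LaurentSeries Qb)) ^ 6 * RJ (JdL d₁) * phZ (qExpand ℤ d₁ DZ)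
  linear_combination -e2

open Fermat.Agent.GR.HeckeField in
/-- **(X3)** `X` is integral over `ℚ̄[t₁]`. -/
theorem isInt_XF {M q : ℕ} [NeZero M] [NeZero q] (hq : q.Prime) (hqM : ¬ q ∣ M) :
    IsInt Qb (TOR.T1.tt (alp M q) (bet M q) (xF M)) (XF M q) :=
  isInt_XF_of hq hqM (hC _ _ _ _ _)

open Fermat.Agent.GR.HeckeField in
/-- **(X3)** `X⁻¹` is integral over `ℚ̄[t₁]`. -/
theorem isInt_XF_inv {M q : ℕ} [NeZero M] [NeZero q] (hq : q.Prime) (hqM : ¬ q ∣ M) :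
    IsInt Qb (TOR.T1.tt (alp M q) (bet M q) (xF M)) (XF M q)⁻¹ :=
  isInt_XF_inv_of hq hqM (hC _ _ _ _ _)

end Fermat.Agent.CAR.TH1
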