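import Fermat.Agent.CAR.TH1.Pl.IntU

/-!
# CAR / TH1 / Pl / CU : eta quotients are units off the cusps (package CAR-TH1-PL3)
-/

set_option autoImplicit false

open ModularCurve AlgebraicCurve Polynomial

noncomputable section

namespace Fermat.Agent.CAR.TH1

open Fermat.Agent.GR Fermat.Agent.GAL Fermat.Agent.GAL.KL Fermat.Agent.GAL.KLC Fermat.Agent.S24

/-- a unit `y` of `ℤ((Q))` is (the expansion of) a function of level `N` without zeros and poles off the cusps. -/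
def IsCU (N : ℕ) (y : (LaurentSeries ℤ)ˣ) : Prop :=
  ∃ h : ((uR Qb y : (LaurentSeries Qb)ˣ) : LaurentSeries Qb) ∈ FL Qb N,
    ∀ P : Place Qb (FN N), 0 ≤ P.ord (JJ N) → P.ord (⟨_, h⟩ : FN N) = 0

/-- constructor of `IsCU` from an element of `FN N`. -/
theorem cu_of {N : ℕ} {y : (LaurentSeries ℤ)ˣ} (z : FN N)
    (hz : (z : LaurentSeries Qb) = ((uR Qb y : (LaurentSeries Qb)ˣ) : LaurentSeries Qb))
    (h : ∀ P : Place Qb (FN N), 0 ≤ P.ord (JJ N) → P.ord z = 0) : IsCU N y := by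
  refine ⟨hz ▸ z.2, fun P hP => ?_⟩
  have e : (⟨((uR Qb y : (LaurentSeries Qb)ˣ) : LaurentSeries Qb), hz ▸ z.2⟩ : FN N) = z :=
    Subtype.ext hz.symm
  rw [e]
  exact h P hP

/-- eliminator of `IsCU`. -/
theorem IsCU.exists {N : ℕ} {y : (LaurentSeries ℤ)ˣ} (hy : IsCU N y) :
    ∃ z : FN N, (z : LaurentSeries Qb) = ((uR Qb y : (LaurentSeries Qb)ˣ) : LaurentSeries Qb) ∧
      z ≠ 0 ∧ ∀ P : Place Qb (FN N), 0 ≤ P.ord (JJ N) → P.ord z = 0 := by
  obtain ⟨h, hP⟩ := hy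
  refine ⟨⟨_, h⟩, rfl, fun h0 => ?_, hP⟩
  exact (uR Qb y).ne_zero (congrArg Subtype.val h0)

theorem IsCU.one (N : ℕ) : IsCU N 1 := by
  refine cu_of 1 ?_ fun P _ => P.ord_one
  have : uR Qb 1 = 1 := map_one _
  rw [this, Units.val_one]
  rfl

theorem IsCU.mul {N : ℕ} {y z : (LaurentSeries ℤ)ˣ} (hy : IsCU N y) (hz : IsCU N z) : IsCU N (y * z) := by
  obtain ⟨a, ha, ha0, haP⟩ := hy.exists
  obtain ⟨b, hb, hb0, hbP⟩ := hz.exists
  refine cu_of (a * b) ?_ fun P hP => ?_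
  · rw [uR_mul, Units.val_mul, ← ha, ← hb]
    rfl
  · rw [P.ord_mul ha0 hb0, haP P hP, hbP P hP, add_zero]

theorem IsCU.inv {N : ℕ} {y : (LaurentSeries ℤ)ˣ} (hy : IsCU N y) : IsCU N y⁻¹ := by
  obtain ⟨a, ha, ha0, haP⟩ := hy.exists
  refine cu_of a⁻¹ ?_ fun P hP => ?_
  · rw [uR_inv, Units.val_inv_eq_inv_val, ← ha]
    rfl
  · rw [P.ord_inv, haP P hP, neg_zero]

theorem IsCU.pow {N : ℕ} {y : (LaurentSeries ℤ)ˣ} (hy : IsCU N y) (n : ℕ) : IsCU N (y ^ n) := by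
  induction n with
  | zero => rw [pow_zero]; exact IsCU.one N
  | succ n ih => rw [pow_succ]; exact ih.mul hy

theorem IsCU.zpow {N : ℕ} {y : (LaurentSeries ℤ)ˣ} (hy : IsCU N y) (n : ℤ) : IsCU N (y ^ n) := by
  obtain ⟨m, rfl | rfl⟩ := n.eq_nat_or_neg
  · rw [zpow_natCast]; exact hy.pow m
  · rw [zpow_neg, zpow_natCast]; exact (hy.pow m).inv

theorem IsCU.prod {N : ℕ} {ι : Type*} (s : Finset ι) (y : ι → (LaurentSeries ℤ)ˣ)
    (hy : ∀ i ∈ s, IsCU N (y i)) : IsCU N (∏ i ∈ s, y i) := by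
  classical
  induction s using Finset.induction_on with
  | empty => rw [Finset.prod_empty]; exact IsCU.one N
  | insert a s ha ih =>
    rw [Finset.prod_insert ha]
    exact (hy a (Finset.mem_insert_self a s)).mul (ih fun i hi => hy i (Finset.mem_insert_of_mem hi))

/-- from `isInt_uF`, `isInt_uF_inv` and `KLC.isInt_iff_forall_ord (transcendental_JJ N)`, `Place.ord_inv`. -/
theorem isCU_uU (N d : ℕ) [NeZero N] (hd : d ∣ N) : IsCU N (uU d) := by
  refine cu_of (uF N d hd) rfl fun P hP => ?_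
  have h1 := (isInt_iff_forall_ord (transcendental_JJ N) _).1 (isInt_uF N d hd) P hP
  have h2 := (isInt_iff_forall_ord (transcendental_JJ N) _).1 (isInt_uF_inv N d hd) P hP
  rw [P.ord_inv] at h2
  omega

theorem isCU_hU (M : ℕ) [NeZero M] : IsCU M (hU M) := by
  unfold hU
  exact IsCU.prod _ _ fun T hT => (isCU_uU M _ (S28.E4.dT_dvd M hT)).zpow _

theorem isCU_XU (M q : ℕ) [NeZero M] [NeZero q] : IsCU (M * q) (XU M q) := by
  unfold XU
  refine IsCU.prod _ _ fun T hT => IsCU.zpow ?_ _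
  have hd := S28.E4.dT_dvd M hT
  unfold dU
  exact (isCU_uU (M * q) _ (by rw [mul_comm M q]; exact mul_dvd_mul_left q hd)).mul
    (isCU_uU (M * q) _ (hd.mul_right q)).inv

/-- **`X` is a unit off the cusps.** -/
theorem ord_XF_of_nonneg (M q : ℕ) [NeZero M] [NeZero q] (P : Place Qb (FN (M * q)))
    (hP : 0 ≤ P.ord (JJ (M * q))) : P.ord (XF M q) = 0 := by
  obtain ⟨h, hh⟩ := isCU_XU M q
  exact hh P hP

theorem cu_coe_JJ (N : ℕ) : ((JJ N : FN N) : LaurentSeries Qb) = jqModC Qb := by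
  show coeffEmb Qb (qExpand ℚ 1 jq) = jqModC Qb
  rw [qExpand_one_apply]
  exact coeffMap_jqModC (algebraMap ℚ Qb)

/-- **off the cusps `ord x = e₀ ord j`.**  (`xF M = ⟨uR Qb (hU M), _⟩ * JJ M ^ e0 M` by `Subtype.ext`:
`xR`, `XZ`, `map_mul`, `map_pow`, `coeffMap_jqModC`/`xMem_coeffMap_int`, `JdL`, `qExpand_one_apply`.) -/
theorem ord_xF_of_nonneg (M : ℕ) [NeZero M] (P : Place Qb (FN M)) (hP : 0 ≤ P.ord (JJ M)) :
    P.ord (xF M) = e0 M * P.ord (JJ M) := by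
  obtain ⟨a, ha, ha0, haP⟩ := (isCU_hU M).exists
  have hJ0 : JJ M ≠ 0 := fun h0 => transcendental_JJ M (h0 ▸ isAlgebraic_zero)
  have e : xF M = a * JJ M ^ e0 M := by
    apply Subtype.ext
    show xR Qb M = (a : LaurentSeries Qb) * ((JJ M : FN M) : LaurentSeries Qb) ^ e0 M
    rw [ha, cu_coe_JJ, coe_uR, xR, XZ, map_mul, map_pow, coeffMap_jqModC]
  rw [e, P.ord_mul ha0 (pow_ne_zero _ hJ0), haP P hP, zero_add, FF.ord_pow]

end Fermat.Agent.CAR.TH1
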