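import Fermat.Agent.CAR.TH1.Pl.Zx
import Fermat.Agent.CAR.BKP.Poles

/-!
# CAR / TH1 / Pl / Cusp : the cusps of level `M q`; `x(τ)`, `x(qτ)` have no zeros there
-/

set_option autoImplicit false

open ModularCurve AlgebraicCurve Polynomial

noncomputable section

namespace Fermat.Agent.CAR.TH1

open Fermat.Agent.GR Fermat.Agent.GAL Fermat.Agent.GAL.KL Fermat.Agent.GAL.KLC Fermat.Agent.S24
open Fermat.Agent.GR.HeckeField Fermat.Agent.TOR.GB

variable {M q : ℕ} [NeZero M] [NeZero q]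

theorem alp_JJ : alp M q (JJ M) = JJ (M * q) := alp_Jd M q 1 (one_dvd M)

theorem bet_JJ : bet M q (JJ M) = Jd (M * q) q (Dvd.intro_left M rfl) := by
  have h := bet_Jd M q 1 (one_dvd M)
  rw [show JJ M = Jd M 1 (one_dvd M) from rfl, h]
  apply Subtype.ext
  show JdL (q * 1) = JdL q
  have key : ∀ (a b : ℕ) [NeZero a] [NeZero b], a = b → JdL a = JdL b := by
    intro a b _ _ h
    subst h
    rfl
  exact key _ _ (mul_one q)

theorem ord_Jq_nonneg (P : Place Qb (FN (M * q))) (hP : 0 ≤ P.ord (JJ (M * q))) :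
    0 ≤ P.ord (Jd (M * q) q (Dvd.intro_left M rfl)) :=
  (isInt_iff_forall_ord (transcendental_JJ (M * q)) _).1 (isInt_Jd (M * q) q _) P hP

/-- the cusps are the poles of `j(qτ)` as well. -/
theorem ord_Jq_neg_iff (hq : q.Prime) (hqM : ¬ q ∣ M) (P : Place Qb (FN (M * q))) :
    P.ord (Jd (M * q) q (Dvd.intro_left M rfl)) < 0 ↔ P.ord (JJ (M * q)) < 0 := by
  constructor
  · intro h
    by_contra hcon
    have := ord_Jq_nonneg P (not_lt.1 hcon)
    omega
  · intro h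
    by_contra hcon
    obtain ⟨P', hP'⟩ := TOR.T1.exists_place_comp (wq M q) P
    have h1 : 0 ≤ P'.ord (JJ (M * q)) := by
      rw [hP', ← alp_JJ, wq_alp hq hqM, bet_JJ]
      exact not_lt.1 hcon
    have h2 := ord_Jq_nonneg P' h1
    rw [hP', ← bet_JJ, wq_bet hq hqM, alp_JJ] at h2
    omega

theorem ord_alp_xF_cusp (P : Place Qb (FN (M * q))) (hP : P.ord (JJ (M * q)) < 0) :
    P.ord (alp M q (xF M)) ≤ 0 := by
  by_contra hcon
  rw [not_le, BKP.ord_map_pos_iff] at hcon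
  rw [← alp_JJ, BKP.ord_map_neg_iff] at hP
  have := ord_xF_cusp M _ hP
  omega

theorem ord_bet_xF_cusp (hq : q.Prime) (hqM : ¬ q ∣ M) (P : Place Qb (FN (M * q)))
    (hP : P.ord (JJ (M * q)) < 0) : P.ord (bet M q (xF M)) ≤ 0 := by
  by_contra hcon
  rw [not_le, BKP.ord_map_pos_iff] at hcon
  rw [← ord_Jq_neg_iff hq hqM, ← bet_JJ, BKP.ord_map_neg_iff] at hP
  have := ord_xF_cusp M _ hP
  omega

end Fermat.Agent.CAR.TH1
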