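import Fermat.Agent.CAR.TH1.Pl.IntU

/-!
# CAR / TH1 / Pl / Formal : the formal identity `X · x(τ) · (u_q j_q)^{e₀} = x(qτ) · j^{e₀}` (package CAR-TH1-PL5)
-/

set_option autoImplicit false

open ModularCurve AlgebraicCurve Polynomial

noncomputable section

namespace Fermat.Agent.CAR.TH1

open Fermat.Agent.GR Fermat.Agent.GAL Fermat.Agent.GAL.KL Fermat.Agent.GAL.KLC Fermat.Agent.S24
open Fermat.Agent.GR.HeckeField

/-- `q ↦ q^d` on units. -/
abbrev Formal_phi (d : ℕ) : (LaurentSeries ℤ)ˣ →* (LaurentSeries ℤ)ˣ :=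
  Units.map (S28.qE ℤ d : LaurentSeries ℤ →* LaurentSeries ℤ)

theorem Formal_phi_one (y : (LaurentSeries ℤ)ˣ) : Formal_phi 1 y = y := by
  apply Units.ext
  show S28.qE ℤ 1 (y : LaurentSeries ℤ) = y
  rw [S28.qE_eq, qExpand_one_apply]

theorem Formal_phi_phi (q d : ℕ) [NeZero q] [NeZero d] (y : (LaurentSeries ℤ)ˣ) :
    Formal_phi q (Formal_phi d y) = Formal_phi (q * d) y := by
  apply Units.ext
  show S28.qE ℤ q (S28.qE ℤ d (y : LaurentSeries ℤ)) = S28.qE ℤ (q * d) (y : LaurentSeries ℤ)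
  rw [S28.qE_eq, S28.qE_eq, S28.qE_eq, qExpand_qExpand]

theorem Formal_uU_eq (d : ℕ) : uU d = Formal_phi d DU * DU⁻¹ := rfl

/-- `u_1 = 1`  (`uU`, `S28.qE_eq`, `qExpand_one_apply`; `Units.ext`). -/
theorem uU_one : uU 1 = 1 := by
  rw [Formal_uU_eq, Formal_phi_one, mul_inv_cancel]

/-- `u_d(Q^q) = u_{qd} / u_q`.
(`Units.ext`; `uU d = qE d Δ * Δ⁻¹`; `qE q (qE d y) = qE (q * d) y` from `S28.qE_eq` + `qExpand_qExpand`.) -/
theorem qE_uU (q d : ℕ) [NeZero q] [NeZero d] :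
    Units.map (S28.qE ℤ q : LaurentSeries ℤ →* LaurentSeries ℤ) (uU d) = uU (q * d) * (uU q)⁻¹ := by
  show Formal_phi q (uU d) = _
  rw [Formal_uU_eq, Formal_uU_eq, Formal_uU_eq, map_mul, map_inv, Formal_phi_phi]
  group

theorem Formal_prod_zpow {G ι : Type*} [CommGroup G] (s : Finset ι) (g : G) (e : ι → ℤ) :
    ∏ i ∈ s, g ^ e i = g ^ ∑ i ∈ s, e i := by
  classical
  induction s using Finset.induction_on with
  | empty => simp
  | insert a s ha ih => rw [Finset.prod_insert ha, Finset.sum_insert ha, zpow_add, ih]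

/-- **the identity in `ℤ((Q))ˣ`**: `X · h · u_q^{e₀} = h(Q^q)`.
PROOF. `h(Q^q) = ∏_T (u_{q d_T} u_q⁻¹)^{exp_T} = (∏_T u_{q d_T}^{exp_T}) · u_q^{-∑ exp_T}`, `∑_T exp_T = - e₀`
(`XSeries_sum_expT`); `X = ∏_T (u_{q d_T} u_{d_T}⁻¹)^{exp_T}` (`XU`, `dU`); `mul_zpow`, `Finset.prod_mul_distrib`,
`Finset.prod_zpow`/`Finset.prod_pow_eq_pow_sum`-type lemma for `zpow` (`Finset.prod_zpow`, or induction);
commutative group computation.  (`d_T ≠ 0`: `XSeries_dT_ne_zero`.) -/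
theorem XU_mul (M q : ℕ) [NeZero M] [NeZero q] :
    XU M q * hU M * uU q ^ (e0 M) =
      Units.map (S28.qE ℤ q : LaurentSeries ℤ →* LaurentSeries ℤ) (hU M) := by
  have h1 : XU M q * hU M
      = ∏ T ∈ M.primeFactors.powerset, uU (q * S28.E4.dT M T) ^ S28.E4.expT M T := by
    unfold XU hU dU
    rw [← Finset.prod_mul_distrib]
    refine Finset.prod_congr rfl fun T _ => ?_
    rw [← mul_zpow, inv_mul_cancel_right]
  have h2 : Units.map (S28.qE ℤ q : LaurentSeries ℤ →* LaurentSeries ℤ) (hU M)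
      = (∏ T ∈ M.primeFactors.powerset, uU (q * S28.E4.dT M T) ^ S28.E4.expT M T)
        * ∏ T ∈ M.primeFactors.powerset, (uU q)⁻¹ ^ S28.E4.expT M T := by
    unfold hU
    rw [map_prod, ← Finset.prod_mul_distrib]
    refine Finset.prod_congr rfl fun T hT => ?_
    have : NeZero (S28.E4.dT M T) := ⟨XSeries_dT_ne_zero M hT⟩
    rw [map_zpow, qE_uU, mul_zpow]
  rw [h1, h2, Formal_prod_zpow, XSeries_sum_expT, zpow_neg, inv_zpow, inv_inv, zpow_natCast]

theorem Formal_JdL (d : ℕ) [NeZero d] :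
    JdL d = coeffMap (Int.castRingHom Qb) (qExpand ℤ d (jqModC ℤ)) :=
  GR.coeffEmb_qExpand_jq d

/-- **the identity in `FN (M q)`**.
PROOF. `Subtype.ext`; the coercions: `coe_heckeAlphaBar`, `coe_heckeBetaBar` (`bet` = `qExpand Qb q`), `xF M = ⟨xR Qb M, _⟩`,
`xR Qb M = coeffMap (Int.castRingHom Qb) (hU M * jqModC ℤ ^ e₀)`, `GR.coeffMap_qExpand`, `JdL d = coeffEmb Qb (qExpand ℚ d jq)`
`= coeffMap (Int.castRingHom Qb) (qExpand ℤ d (jqModC ℤ))` (`xMem_coeffMap_int`, `coeffMap_jqModC`); then apply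
`coeffMap (Int.castRingHom Qb)` to (the coercion of) `XU_mul` times `(j(Q^q) j)^{e₀}`. -/
theorem XF_mul (M q : ℕ) [NeZero M] [NeZero q] :
    XF M q * alp M q (xF M) * (uF (M * q) q (Dvd.intro_left M rfl) * Jd (M * q) q (Dvd.intro_left M rfl)) ^ e0 M
      = bet M q (xF M) * JJ (M * q) ^ e0 M := by
  apply Subtype.ext
  have hL : ((XF M q * alp M q (xF M) * (uF (M * q) q (Dvd.intro_left M rfl)
      * Jd (M * q) q (Dvd.intro_left M rfl)) ^ e0 M : FN (M * q)) : LaurentSeries Qb)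
      = XR Qb M q * xR Qb M * (coeffMap (Int.castRingHom Qb) (uU q : LaurentSeries ℤ) * JdL q) ^ e0 M := by
    have h1 : ((alp M q (xF M) : FN (M * q)) : LaurentSeries Qb) = xR Qb M :=
      coe_heckeAlphaBar M q (xF M)
    rw [← h1]
    rfl
  have hR : ((bet M q (xF M) * JJ (M * q) ^ e0 M : FN (M * q)) : LaurentSeries Qb)
      = qExpand Qb q (xR Qb M) * JdL 1 ^ e0 M := by
    have h1 : ((bet M q (xF M) : FN (M * q)) : LaurentSeries Qb) = qExpand Qb q (xR Qb M) :=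
      coe_heckeBetaBar M q (xF M)
    rw [← h1]
    rfl
  rw [hL, hR, Formal_JdL, Formal_JdL, qExpand_one_apply]
  unfold XR xR XZ
  have h3 := congrArg (fun y : (LaurentSeries ℤ)ˣ => (y : LaurentSeries ℤ)) (XU_mul M q)
  simp only [Units.val_mul, Units.val_pow_eq_pow_val, Units.coe_map, MonoidHom.coe_coe] at h3
  rw [S28.qE_eq] at h3
  have key : (XU M q : LaurentSeries ℤ) * ((hU M : LaurentSeries ℤ) * jqModC ℤ ^ e0 M)
      * ((uU q : LaurentSeries ℤ) * qExpand ℤ q (jqModC ℤ)) ^ e0 M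
      = qExpand ℤ q ((hU M : LaurentSeries ℤ) * jqModC ℤ ^ e0 M) * jqModC ℤ ^ e0 M := by
    rw [map_mul, map_pow, ← h3]
    ring
  rw [← GR.coeffMap_qExpand, ← map_mul, ← map_mul, ← map_pow, ← map_mul, ← map_pow, ← map_mul]
  exact congrArg (coeffMap (Int.castRingHom Qb)) key

/-- `dF N 1 q = uF N q`. -/
theorem dF_one (N d : ℕ) [NeZero N] (hd : d ∣ N) : dF N 1 d (one_dvd N) hd = uF N d hd := by
  apply Subtype.ext
  show ((uR Qb (dU 1 d) : (LaurentSeries Qb)ˣ) : LaurentSeries Qb)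
    = ((uR Qb (uU d) : (LaurentSeries Qb)ˣ) : LaurentSeries Qb)
  unfold dU
  rw [uU_one, inv_one, mul_one]

end Fermat.Agent.CAR.TH1
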