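import Fermat.Agent.CAR.TH1.Pl.OrdC
import Fermat.Agent.GAL.KLC.IsIntOrd
import Fermat.Agent.GAL.KLC.SpansPrim

/-!
# CAR / TH1 / Pl / IntU : `u_d^{±1}`, `j_d` are integral over `ℚ̄[j]` (package CAR-TH1-PL1)
-/

set_option autoImplicit false

open ModularCurve AlgebraicCurve Polynomial

noncomputable section

namespace Fermat.Agent.CAR.TH1

open Fermat.Agent.GR Fermat.Agent.GAL Fermat.Agent.GAL.KL Fermat.Agent.GAL.KLC Fermat.Agent.S24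

/-- `u_d = Δ(Q^d)/Δ(Q)` as an element of `FN N`. -/
def uF (N d : ℕ) [NeZero N] (hd : d ∣ N) : FN N :=
  ⟨((uR Qb (uU d) : (LaurentSeries Qb)ˣ) : LaurentSeries Qb), uU_mem N d hd⟩

/-- transport of `S28.gens_integral` to `FN N`.
PROOF. `hy = ⟨p, monic, eval₂ = 0⟩`, `p : (Zl ℓ)[X]`.  Take `p.map (Zl ℓ → ℚ → Qb)`; it is monic, and
`eval₂ (aeval (JJ N)) z (p.map _) = 0` in `FN N` is checked after `Subtype.val` (injective) : the ring hom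
`coeffEmb Qb ∘ Subtype.val : Fp N → LaurentSeries Qb` maps `iT N ℓ (jF N) r` to `aeval (JJ N) (r.map _)` (ring hom ext on
`(Zl ℓ)[X]`: constants and `X ↦ jq ↦ JdL 1 = coeffEmb Qb (qExpand ℚ 1 jq)`, `qExpand_one_apply`).
Model: `KLC.xMem_isIntegral_ud`, `KLC.xMem_isIntegralElem_of_square`, `KLC.spansPrim_isIntegral`. -/
theorem pl_isInt_of_iT (N ℓ : ℕ) [NeZero N] [Fact ℓ.Prime] (y : S28.Fp N)
    (hy : (S28.iT N ℓ (S28.jF N)).IsIntegralElem y) (z : FN N)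
    (hz : (z : LaurentSeries Qb) = coeffEmb Qb (y : S28.LQ)) : IsInt Qb (JJ N) z := by
  let g : S28.Fp N →+* LaurentSeries Qb := (coeffEmb Qb).comp (algebraMap (S28.Fp N) S28.LQ)
  let ψ : (S28.Zl ℓ)[X] →+* Qb[X] :=
    mapRingHom ((algebraMap ℚ Qb).comp (GaloisRep.ratLocalizedAt ℓ).subtype)
  let k : Qb[X] →+* LaurentSeries Qb := (algebraMap (FN N) (LaurentSeries Qb)).comp
    ((aeval (JJ N) : Qb[X] →ₐ[Qb] FN N) : Qb[X] →+* FN N)
  have hcomp : k.comp ψ = g.comp (S28.iT N ℓ (S28.jF N)) := by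
    apply Polynomial.ringHom_ext
    · intro a
      simp only [k, g, ψ, S28.iT, RingHom.comp_apply, Polynomial.coe_eval₂RingHom,
        Polynomial.eval₂_C, coe_mapRingHom, map_C, RingHom.coe_coe, aeval_C, eq_ratCast,
        map_ratCast]
    · simp only [k, g, ψ, S28.iT, RingHom.comp_apply, Polynomial.coe_eval₂RingHom,
        Polynomial.eval₂_X, coe_mapRingHom, map_X, RingHom.coe_coe, aeval_X,
        IntermediateField.algebraMap_apply, S28.jF]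
      show coeffEmb Qb (qExpand ℚ 1 jq) = coeffEmb Qb jq
      rw [qExpand_one_apply]
  obtain ⟨P, hP, hev⟩ := xMem_isIntegralElem_of_square _ g ψ k hcomp hy
  refine ⟨P, hP, ?_⟩
  apply (algebraMap (FN N) (LaurentSeries Qb)).injective
  rw [Polynomial.hom_eval₂, map_zero]
  have h1 : algebraMap (FN N) (LaurentSeries Qb) z = g y := hz
  rw [h1]
  exact hev

theorem pl_exists_prime (N : ℕ) [NeZero N] : ∃ ℓ : ℕ, ℓ.Prime ∧ ¬ ℓ ∣ N := by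
  obtain ⟨ℓ, hℓ1, hℓ2⟩ := Nat.exists_infinite_primes (N + 1)
  refine ⟨ℓ, hℓ2, fun h => ?_⟩
  have := Nat.le_of_dvd (Nat.pos_of_ne_zero (NeZero.ne N)) h
  omega

theorem coe_uF (N d : ℕ) [NeZero N] (hd : d ∣ N) :
    ((uF N d hd : FN N) : LaurentSeries Qb) = coeffEmb Qb (S28.ud d) := by
  show ((uR Qb (uU d) : (LaurentSeries Qb)ˣ) : LaurentSeries Qb) = _
  rw [coe_uR, xMem_coeffMap_int, xMem_coeffMap_uU]

/-- PROOF: choose a prime `ℓ ∤ N` (`Nat.exists_infinite_primes (N+1)`), `(S28.gens_integral N ℓ _ _ d hd).2.1`,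
`S28.D_coe_udF`, `xMem_coeffMap_int`, `xMem_coeffMap_uU`, `coe_uR`. -/
theorem isInt_uF (N d : ℕ) [NeZero N] (hd : d ∣ N) : IsInt Qb (JJ N) (uF N d hd) := by
  obtain ⟨ℓ, hℓ, hℓN⟩ := pl_exists_prime N
  have : Fact ℓ.Prime := ⟨hℓ⟩
  refine pl_isInt_of_iT N ℓ _ (S28.gens_integral N ℓ (NeZero.ne N) hℓN d hd).2.1 _ ?_
  rw [S28.D_coe_udF N hd]
  exact coe_uF N d hd

/-- same with `.2.2`. -/
theorem isInt_uF_inv (N d : ℕ) [NeZero N] (hd : d ∣ N) : IsInt Qb (JJ N) (uF N d hd)⁻¹ := by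
  obtain ⟨ℓ, hℓ, hℓN⟩ := pl_exists_prime N
  have : Fact ℓ.Prime := ⟨hℓ⟩
  refine pl_isInt_of_iT N ℓ _ (S28.gens_integral N ℓ (NeZero.ne N) hℓN d hd).2.2 _ ?_
  show ((uF N d hd : FN N) : LaurentSeries Qb)⁻¹ = coeffEmb Qb ((S28.udF N d : S28.Fp N) : S28.LQ)⁻¹
  rw [S28.D_coe_udF N hd, map_inv₀, coe_uF N d hd]

/-- same with `.1` (`S28.D_coe_jdF`, `S28.jd`, `S28.qE_eq`). -/
theorem isInt_Jd (N d : ℕ) [NeZero N] [NeZero d] (hd : d ∣ N) : IsInt Qb (JJ N) (Jd N d hd) := by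
  obtain ⟨ℓ, hℓ, hℓN⟩ := pl_exists_prime N
  have : Fact ℓ.Prime := ⟨hℓ⟩
  refine pl_isInt_of_iT N ℓ _ (S28.gens_integral N ℓ (NeZero.ne N) hℓN d hd).1 _ ?_
  rw [S28.D_coe_jdF N hd, S28.jd, S28.qE_eq]
  rfl

end Fermat.Agent.CAR.TH1
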