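import Fermat.Agent.CAR.TH1.Pl.Cusp
import Fermat.Agent.CAR.TH1.Pl.Formal
import Fermat.Agent.S37.Defs
import Fermat.Agent.TOR.T1.ResField

/-!
# CAR / TH1 / Pl / Main : (X3) `X` and `X⁻¹` are integral over `ℚ̄[t₁]`, `t₁ = x(τ) x(qτ)`
-/

set_option autoImplicit false

open ModularCurve AlgebraicCurve Polynomial

noncomputable section

namespace Fermat.Agent.CAR.TH1

open Fermat.Agent.GR Fermat.Agent.GAL Fermat.Agent.GAL.KL Fermat.Agent.GAL.KLC Fermat.Agent.S24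
open Fermat.Agent.GR.HeckeField Fermat.Agent.TOR.GB

/-- the differential identity for `Δ(Q^{d₂})/Δ(Q^{d₁})` (input from `CAR/TH1`, helper35). -/
def HC (N d₁ d₂ : ℕ) [NeZero N] [NeZero d₁] [NeZero d₂] (h₁ : d₁ ∣ N) (h₂ : d₂ ∣ N) : Prop :=
  ∃ c : FN N, KaehlerDifferential.D Qb (FN N) (Jd N d₂ h₂) = c • KaehlerDifferential.D Qb (FN N) (Jd N d₁ h₁) ∧
    dF N d₁ d₂ h₁ h₂ * RJ (Jd N d₂ h₂) * (d₂ : FN N) ^ 6 = (c * (d₁ : FN N)) ^ 6 * RJ (Jd N d₁ h₁)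

variable {M q : ℕ} [NeZero M] [NeZero q]

/-- `W = u_q j_q / j` is a unit at the cusps. -/
theorem ord_uF_cusp (hq : q.Prime) (hqM : ¬ q ∣ M)
    (hc : HC (M * q) 1 q (one_dvd _) (Dvd.intro_left M rfl)) (P : Place Qb (FN (M * q)))
    (hP : P.ord (JJ (M * q)) < 0) :
    P.ord (uF (M * q) q (Dvd.intro_left M rfl)) =
      P.ord (JJ (M * q)) - P.ord (Jd (M * q) q (Dvd.intro_left M rfl)) := by
  obtain ⟨c, hc1, hc2⟩ := hc
  rw [dF_one] at hc2
  exact pl_ord_u P one_ne_zero (NeZero.ne q) hP ((ord_Jq_neg_iff hq hqM P).2 hP) hc1 hc2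

theorem xF_ne_zero' : xF M ≠ 0 := fun h => transcendental_xF M (h ▸ isAlgebraic_zero)

theorem transcendental_t1 : Transcendental Qb (TOR.T1.tt (alp M q) (bet M q) (xF M)) := by
  apply FF.transcendental_of_ord_ne_zero (S37.Pinf (M * q))
  have hx : xF M ≠ 0 := xF_ne_zero'
  have ha : alp M q (xF M) ≠ 0 := (_root_.map_ne_zero _).2 hx
  have hb : bet M q (xF M) ≠ 0 := (_root_.map_ne_zero _).2 hx
  unfold TOR.T1.tt
  rw [Place.ord_mul _ ha hb, S37.Pinf_ord, S37.Pinf_ord, coe_heckeAlphaBar, coe_heckeBetaBar,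
    TOR.T1.ResField_order_qExpand]
  have h1 : ((xF M : FL Qb M) : LaurentSeries Qb).order = -(mX M : ℤ) := order_xR M Qb
  rw [h1]
  have h2 : (0 : ℤ) < mX M := by exact_mod_cast mX_pos M
  have h3 : (0 : ℤ) < q := by exact_mod_cast Nat.pos_of_ne_zero (NeZero.ne q)
  nlinarith

/-- **`X` has neither zero nor pole where `t₁` is finite.** -/
theorem ord_XF_eq_zero (hq : q.Prime) (hqM : ¬ q ∣ M)
    (hc : HC (M * q) 1 q (one_dvd _) (Dvd.intro_left M rfl)) (P : Place Qb (FN (M * q)))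
    (hP : 0 ≤ P.ord (TOR.T1.tt (alp M q) (bet M q) (xF M))) : P.ord (XF M q) = 0 := by
  rcases le_or_gt 0 (P.ord (JJ (M * q))) with hJ | hJ
  · exact ord_XF_of_nonneg M q P hJ
  have hx : xF M ≠ 0 := xF_ne_zero'
  have ha : alp M q (xF M) ≠ 0 := (_root_.map_ne_zero _).2 hx
  have hb : bet M q (xF M) ≠ 0 := (_root_.map_ne_zero _).2 hx
  have h1 := ord_alp_xF_cusp P hJ
  have h2 := ord_bet_xF_cusp hq hqM P hJ
  unfold TOR.T1.tt at hP
  rw [Place.ord_mul _ ha hb] at hP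
  have hJq := (ord_Jq_neg_iff hq hqM P).2 hJ
  have hu := ord_uF_cusp hq hqM hc P hJ
  have hJ0 : JJ (M * q) ≠ 0 := FF.ne_zero_of_ord_ne_zero P hJ.ne
  have hJq0 : Jd (M * q) q (Dvd.intro_left M rfl) ≠ 0 := FF.ne_zero_of_ord_ne_zero P hJq.ne
  have key := XF_mul M q
  have hR0 : bet M q (xF M) * JJ (M * q) ^ e0 M ≠ 0 := mul_ne_zero hb (pow_ne_zero _ hJ0)
  have hL0 := hR0
  rw [← key] at hL0
  have hX0 : XF M q ≠ 0 := left_ne_zero_of_mul (left_ne_zero_of_mul hL0)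
  have hW0 : uF (M * q) q (Dvd.intro_left M rfl) * Jd (M * q) q (Dvd.intro_left M rfl) ≠ 0 := by
    intro h
    rw [h, zero_pow (XSeries_e0_pos M).ne', mul_zero] at hL0
    exact hL0 rfl
  have hu0 : uF (M * q) q (Dvd.intro_left M rfl) ≠ 0 := left_ne_zero_of_mul hW0
  have key2 := congrArg P.ord key
  rw [Place.ord_mul _ (mul_ne_zero hX0 ha) (pow_ne_zero _ hW0), Place.ord_mul _ hX0 ha, FF.ord_pow,
    Place.ord_mul _ hu0 hJq0, Place.ord_mul _ hb (pow_ne_zero _ hJ0), FF.ord_pow, hu] at key2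
  have e1 : P.ord (JJ (M * q)) - P.ord (Jd (M * q) q (Dvd.intro_left M rfl))
      + P.ord (Jd (M * q) q (Dvd.intro_left M rfl)) = P.ord (JJ (M * q)) := by ring
  rw [e1] at key2
  omega

theorem isInt_XF_of (hq : q.Prime) (hqM : ¬ q ∣ M)
    (hc : HC (M * q) 1 q (one_dvd _) (Dvd.intro_left M rfl)) :
    IsInt Qb (TOR.T1.tt (alp M q) (bet M q) (xF M)) (XF M q) :=
  (isInt_iff_forall_ord transcendental_t1 _).2 fun P hP => (ord_XF_eq_zero hq hqM hc P hP).ge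

theorem isInt_XF_inv_of (hq : q.Prime) (hqM : ¬ q ∣ M)
    (hc : HC (M * q) 1 q (one_dvd _) (Dvd.intro_left M rfl)) :
    IsInt Qb (TOR.T1.tt (alp M q) (bet M q) (xF M)) (XF M q)⁻¹ :=
  (isInt_iff_forall_ord transcendental_t1 _).2 fun P hP => by
    rw [Place.ord_inv, ord_XF_eq_zero hq hqM hc P hP]
    rfl

end Fermat.Agent.CAR.TH1
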