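import Fermat.Agent.CAR.TH1.Defs
import Fermat.Agent.S24.FF.RiemannHurwitz

/-!
# CAR / TH1 / Pl / OrdC : abstract facts on orders at a place (package CAR-TH1-PL2)

`K` algebraically closed of characteristic zero, `F/K` a function field of one variable.
-/

set_option autoImplicit false

open ModularCurve AlgebraicCurve Polynomial

noncomputable section

namespace Fermat.Agent.CAR.TH1

open Fermat.Agent.S24 Fermat.Agent.S24.FF

variable {K F : Type*} [Field K] [Field F] [Algebra K F]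

/-- `ord` of a finite product of nonzero elements.  (Induction on `s`, `Place.ord_mul`, `Place.ord_one`.) -/
theorem pl_ord_prod (P : Place K F) {ι : Type*} (s : Finset ι) (f : ι → F) (hf : ∀ i ∈ s, f i ≠ 0) :
    P.ord (∏ i ∈ s, f i) = ∑ i ∈ s, P.ord (f i) := by
  classical
  induction s using Finset.induction_on with
  | empty => simp
  | insert a s ha ih =>
    rw [Finset.prod_insert ha, Finset.sum_insert ha,
      P.ord_mul (hf a (Finset.mem_insert_self a s))
        (Finset.prod_ne_zero_iff.2 fun i hi => hf i (Finset.mem_insert_of_mem hi)),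
      ih fun i hi => hf i (Finset.mem_insert_of_mem hi)]

/-- a nonzero natural number is a unit at every place (`CharZero K`; `(n : F) = algebraMap K F n`,
`FF.ord_algebraMap`). -/
theorem pl_ord_natCast [CharZero K] (P : Place K F) (n : ℕ) : P.ord (n : F) = 0 := by
  rw [← map_natCast (algebraMap K F) n]
  exact FF.ord_algebraMap P _

/-- `ord_P (y⁴ (y - 1728)³) = 7 ord_P y` at a pole of `y`
(`FF.ord_sub_algebraMap_of_pole`, `1728 = algebraMap K F 1728`, `Place.ord_mul`, `FF.ord_pow`). -/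
theorem pl_ord_RJ_of_pole (P : Place K F) {y : F} (h : P.ord y < 0) : P.ord (RJ y) = 7 * P.ord y := by
  have hy : y ≠ 0 := FF.ne_zero_of_ord_ne_zero P (by omega)
  have e : (1728 : F) = algebraMap K F 1728 := (map_ofNat (algebraMap K F) 1728).symm
  have h1 : P.ord (y - 1728) = P.ord y := by
    rw [e]
    exact FF.ord_sub_algebraMap_of_pole P h 1728
  have hy' : y - 1728 ≠ 0 := FF.ne_zero_of_ord_ne_zero P (by omega)
  unfold RJ
  rw [P.ord_mul (pow_ne_zero 4 hy) (pow_ne_zero 3 hy'), FF.ord_pow, FF.ord_pow, h1]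
  push_cast
  ring

variable [IsAlgClosed K] [CharZero K] [IsFF1 K F]

/-- **ord c**: if `dy₂ = c dy₁` and `y₁, y₂` have poles at `P` then `ord_P c = ord_P y₂ - ord_P y₁`.
PROOF. `y₁` is transcendental (`FF.transcendental_of_ord_ne_zero`), `c ≠ 0` (else `D y₂ = 0`, contradicting
`FF.D_ne_zero_of_transcendental`); `FF.ordDifferential_smul_D`, `FF.ordDifferential_D_of_pole` twice; `omega`. -/
theorem pl_ord_c (P : Place K F) {y₁ y₂ c : F} (h₁ : P.ord y₁ < 0) (h₂ : P.ord y₂ < 0)
    (hc : KaehlerDifferential.D K F y₂ = c • KaehlerDifferential.D K F y₁) :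
    P.ord c = P.ord y₂ - P.ord y₁ := by
  have t₁ : Transcendental K y₁ := FF.transcendental_of_ord_ne_zero P (by omega)
  have t₂ : Transcendental K y₂ := FF.transcendental_of_ord_ne_zero P (by omega)
  have hc0 : c ≠ 0 := by
    rintro rfl
    rw [zero_smul] at hc
    exact FF.D_ne_zero_of_transcendental t₂ hc
  have h3 := FF.ordDifferential_smul_D P hc0 t₁
  rw [← hc, FF.ordDifferential_D_of_pole P h₁, FF.ordDifferential_D_of_pole P h₂] at h3
  omega

/-- if moreover `u R(y₂) b⁶ = (c a)⁶ R(y₁)` then `ord_P u = ord_P y₁ - ord_P y₂`.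
PROOF. take `P.ord` of both sides (all factors are nonzero: `RJ yᵢ ≠ 0` since its order is `≠ 0`; `c ≠ 0` as above;
`u ≠ 0` since the right side is nonzero): `ord u + 7 ord y₂ + 0 = 6 (ord y₂ - ord y₁) + 0 + 7 ord y₁`. -/
theorem pl_ord_u (P : Place K F) {y₁ y₂ c u : F} {a b : ℕ} (ha : a ≠ 0) (hb : b ≠ 0)
    (h₁ : P.ord y₁ < 0) (h₂ : P.ord y₂ < 0)
    (hc : KaehlerDifferential.D K F y₂ = c • KaehlerDifferential.D K F y₁)
    (hu : u * RJ y₂ * (b : F) ^ 6 = (c * (a : F)) ^ 6 * RJ y₁) :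
    P.ord u = P.ord y₁ - P.ord y₂ := by
  have t₂ : Transcendental K y₂ := FF.transcendental_of_ord_ne_zero P (by omega)
  have hc0 : c ≠ 0 := by
    rintro rfl
    rw [zero_smul] at hc
    exact FF.D_ne_zero_of_transcendental t₂ hc
  have hoc := pl_ord_c P h₁ h₂ hc
  have r₁ := pl_ord_RJ_of_pole P h₁
  have r₂ := pl_ord_RJ_of_pole P h₂
  have hR₁ : RJ y₁ ≠ 0 := FF.ne_zero_of_ord_ne_zero P (by omega)
  have hR₂ : RJ y₂ ≠ 0 := FF.ne_zero_of_ord_ne_zero P (by omega)
  have ha' : (a : F) ≠ 0 := by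
    rw [← map_natCast (algebraMap K F) a]
    exact (map_ne_zero (algebraMap K F)).2 (Nat.cast_ne_zero.2 ha)
  have hb' : (b : F) ≠ 0 := by
    rw [← map_natCast (algebraMap K F) b]
    exact (map_ne_zero (algebraMap K F)).2 (Nat.cast_ne_zero.2 hb)
  have hu0 : u ≠ 0 := by
    rintro rfl
    rw [zero_mul, zero_mul] at hu
    exact mul_ne_zero (pow_ne_zero 6 (mul_ne_zero hc0 ha')) hR₁ hu.symm
  have h3 := congrArg P.ord hu
  rw [P.ord_mul (mul_ne_zero hu0 hR₂) (pow_ne_zero 6 hb'), P.ord_mul hu0 hR₂, FF.ord_pow,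
    pl_ord_natCast, P.ord_mul (pow_ne_zero 6 (mul_ne_zero hc0 ha')) hR₁, FF.ord_pow,
    P.ord_mul hc0 ha', pl_ord_natCast, r₁, r₂, hoc] at h3
  push_cast at h3
  omega

end Fermat.Agent.CAR.TH1
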