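import Fermat.Agent.CAR.TH1.Pl.CU
import Fermat.Agent.CAR.CNT.NumM
import Fermat.Agent.GAL.KLC.RI
import Fermat.Agent.GAL.FF.ZeroDeg
import Fermat.Agent.Lib.Gamma0Cosets.Index

/-!
# CAR / TH1 / Pl / Zx : (Z) `x` has no zero at a cusp (package CAR-TH1-PL4)
-/

set_option autoImplicit false

open ModularCurve AlgebraicCurve Polynomial

noncomputable section

namespace Fermat.Agent.CAR.TH1

open Fermat.Agent.GR Fermat.Agent.GAL Fermat.Agent.GAL.KL Fermat.Agent.GAL.KLC Fermat.Agent.S24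

/-- **(Z)** `x` has no zero at a cusp.
PROOF (degree count).  Suppose `ord_P j < 0 < ord_P x`.  Let `Z` = the zeros of `j` (`FF.finite_zeros`), `W := insert P Z`
(`P ∉ Z`).  On `Z`: `ord x = e₀ ord j > 0` (`ord_xF_of_nonneg`, `XSeries_e0_pos`).  So
`e₀ ψ(M) + ord_P x = ∑_W ord x ≤ [F : ℚ̄(x)] = m = e₀ ψ(M)` by `FF.sum_ord_zeros` (for `j`), `finrank_FN`,
`Lib.Gamma0Cosets.card_quotient`, `FF.sum_ord_le_finrank` (for `x`),
`finrank_adjoin_of_spans_of_transcendental _ (transcendental_xF M) (spans M) (comb_xF_inj M)`, `CNT.mX_eq`. -/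
theorem ord_xF_cusp (M : ℕ) [NeZero M] (P : Place Qb (FN M)) (hP : P.ord (JJ M) < 0) :
    P.ord (xF M) ≤ 0 := by
  classical
  by_contra hcon
  push Not at hcon
  have hj := transcendental_JJ M
  set Z := (FF.finite_zeros hj).toFinset with hZ
  have hPZ : P ∉ Z := by
    rw [hZ, FF.mem_zeros hj]
    omega
  have he0 : (0 : ℤ) < e0 M := by exact_mod_cast XSeries_e0_pos M
  have hZx : ∀ v ∈ Z, v.ord (xF M) = e0 M * v.ord (JJ M) := fun v hv => by
    rw [hZ, FF.mem_zeros hj] at hv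
    exact ord_xF_of_nonneg M v hv.le
  have h1 := Fermat.Agent.GAL.FF.sum_ord_le_finrank (transcendental_xF M) (insert P Z) (by
    intro v hv
    rcases Finset.mem_insert.1 hv with rfl | hv
    · exact hcon
    · rw [hZx v hv]
      rw [hZ, FF.mem_zeros hj] at hv
      positivity)
  have h2 : Module.finrank (IntermediateField.adjoin Qb {xF M}) (FL Qb M) = mX M :=
    finrank_adjoin_of_spans_of_transcendental _ (transcendental_xF M) (spans M) (comb_xF_inj M)
  have h3 := FF.sum_ord_zeros hj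
  rw [finrank_FN, Lib.Gamma0Cosets.card_quotient] at h3
  rw [Finset.sum_insert hPZ, Finset.sum_congr rfl hZx, ← Finset.mul_sum, h3] at h1
  have h4 : (Module.finrank (IntermediateField.adjoin Qb {xF M}) (FL Qb M) : ℤ)
      = e0 M * dedekindPsi M := by
    rw [h2, CNT.mX_eq]
    push_cast
    ring
  have h5 : P.ord (xF M) + (e0 M : ℤ) * dedekindPsi M ≤ e0 M * dedekindPsi M :=
    h1.trans h4.le
  omega

end Fermat.Agent.CAR.TH1
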